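import Mathlib

/-!
# Cassels' embedding theorem, I: preparations

Elements of `ℚ_p` which are roots of a polynomial over `ℤ_p` with unit extreme coefficients are units;
algebraically independent elements of `ℤ_p` in given residue classes; infinitely many primes divide the
values of a polynomial over `ℤ` (Schur).
-/

set_option autoImplicit false

open Polynomial

namespace Fermat.Agent.Cor.Cassels

section Units

variable {p : ℕ} [hp : Fact p.Prime]

theorem isUnit_of_toZMod_ne_zero {x : ℤ_[p]} (h : PadicInt.toZMod x ≠ 0) : IsUnit x := by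
  by_contra hx
  exact h (by rwa [← RingHom.mem_ker, PadicInt.ker_toZMod, IsLocalRing.mem_maximalIdeal])

/-- A root of a monic polynomial over `ℤ_p` has norm `≤ 1`. -/
theorem norm_le_one_of_root {P : ℤ_[p][X]} (hP : P.Monic) {x : ℚ_[p]}
    (h0 : eval₂ PadicInt.Coe.ringHom x P = 0) : ‖x‖ ≤ 1 := by
  by_contra hlt
  rw [not_le] at hlt
  have hsum : x ^ P.natDegree =
      - ∑ i ∈ Finset.range P.natDegree, PadicInt.Coe.ringHom (P.coeff i) * x ^ i := by
    rw [eval₂_eq_sum_range, Finset.sum_range_succ, hP.coeff_natDegree, map_one, one_mul] at h0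
    exact eq_neg_of_add_eq_zero_right h0
  rcases Nat.eq_zero_or_pos P.natDegree with hn | hn
  · rw [hn] at hsum
    simp at hsum
  · have h1 : ‖x ^ P.natDegree‖ ≤ ‖x‖ ^ (P.natDegree - 1) := by
      rw [hsum, norm_neg]
      refine IsUltrametricDist.norm_sum_le_of_forall_le_of_nonneg (by positivity) fun i hi => ?_
      have hi' : i ≤ P.natDegree - 1 := by
        have := Finset.mem_range.mp hi
        omega
      rw [norm_mul, norm_pow]
      calc _ ≤ 1 * ‖x‖ ^ i := by
            gcongr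
            exact PadicInt.norm_le_one (P.coeff i)
        _ ≤ _ := by
            rw [one_mul]
            exact pow_le_pow_right₀ hlt.le hi'
    rw [norm_pow] at h1
    exact absurd (pow_lt_pow_right₀ hlt (show P.natDegree - 1 < P.natDegree by omega))
      (not_lt.mpr h1)

theorem norm_le_one_of_isUnit_lead {P : ℤ_[p][X]} (hu : IsUnit P.leadingCoeff) {x : ℚ_[p]}
    (h : eval₂ PadicInt.Coe.ringHom x P = 0) : ‖x‖ ≤ 1 := by
  obtain ⟨v, hv⟩ := hu.exists_left_inv
  refine norm_le_one_of_root (P := C v * P) ?_ ?_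
  · rw [Monic, leadingCoeff_mul, leadingCoeff_C, hv]
  · rw [eval₂_mul, h, mul_zero]

/-- A root of a polynomial over `ℤ_p` whose first and last coefficients are units is a unit. -/
theorem norm_eq_one_of_isUnit {P : ℤ_[p][X]} (hu : IsUnit P.leadingCoeff) (h0 : IsUnit (P.coeff 0))
    {x : ℚ_[p]} (hx : x ≠ 0) (h : eval₂ PadicInt.Coe.ringHom x P = 0) : ‖x‖ = 1 := by
  refine le_antisymm (norm_le_one_of_isUnit_lead hu h) ?_
  let := invertibleOfNonzero hx
  have h1 : ‖x⁻¹‖ ≤ 1 := by
    refine norm_le_one_of_isUnit_lead (P := P.reverse) ?_ ?_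
    · rw [reverse_leadingCoeff, trailingCoeff_eq_coeff_zero h0.ne_zero]
      exact h0
    · have h2 := (eval₂_reverse_eq_zero_iff PadicInt.Coe.ringHom x P).mpr h
      rwa [invOf_eq_inv] at h2
  rw [norm_inv] at h1
  exact (inv_le_one₀ (norm_pos_iff.mpr hx)).mp h1

end Units

section AlgIndep

variable (p : ℕ) [hp : Fact p.Prime]

/-- `ℚ_p` has infinite transcendence degree. -/
theorem exists_algebraicIndependent (T : Type*) [Finite T] :
    ∃ x : T → ℚ_[p], AlgebraicIndependent ℚ x := by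
  obtain ⟨B, hB⟩ := exists_isTranscendenceBasis ℚ ℚ_[p]
  have hinf : Infinite B := by
    by_contra hfin
    rw [not_infinite_iff_finite] at hfin
    have := hB.isAlgebraic
    have h1 := Algebra.IsAlgebraic.cardinalMk_le_max
      (Algebra.adjoin ℚ (Set.range (Subtype.val : B → ℚ_[p]))) ℚ_[p]
    have h2 : Cardinal.mk (Algebra.adjoin ℚ (Set.range (Subtype.val : B → ℚ_[p]))) ≤
        Cardinal.aleph0 := by
      rw [← Cardinal.mk_congr hB.1.aevalEquiv.toEquiv]
      refine MvPolynomial.cardinalMk_le_max_lift.trans ?_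
      simp
    have h3 := continuum_le_cardinal_of_nontriviallyNormedField ℚ_[p]
    have h4 := h3.trans (h1.trans (max_le h2 le_rfl))
    exact absurd h4 (not_le.mpr Cardinal.aleph0_lt_continuum)
  obtain ⟨n, ⟨e⟩⟩ := Finite.exists_equiv_fin T
  let i : T → B := fun t => Infinite.natEmbedding B (e t)
  have hi : Function.Injective i := fun t t' h =>
    e.injective (Fin.ext ((Infinite.natEmbedding B).injective h))
  exact ⟨fun t => (i t : ℚ_[p]), hB.1.comp i hi⟩

theorem exists_pow_mul_eq (x : ℚ_[p]) :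
    ∃ e : ℕ, ∃ y : ℤ_[p], (y : ℚ_[p]) = (p : ℚ_[p]) ^ e * x := by
  have h0 : 0 < (‖x‖ + 1)⁻¹ := by positivity
  obtain ⟨k, hk⟩ := PadicInt.exists_pow_neg_lt p h0
  suffices h : ‖(p : ℚ_[p]) ^ k * x‖ ≤ 1 from ⟨k, ⟨_, h⟩, rfl⟩
  rw [norm_mul, Padic.norm_p_pow]
  calc _ ≤ (‖x‖ + 1)⁻¹ * ‖x‖ := by gcongr
    _ ≤ 1 := by
      rw [inv_mul_le_iff₀ (by positivity)]
      linarith

/-- Affine changes preserve algebraic independence. -/
theorem algebraicIndependent_affine {T : Type*} {x : T → ℚ_[p]} (hx : AlgebraicIndependent ℚ x)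
    (a q : T → ℚ) (hq : ∀ t, q t ≠ 0) :
    AlgebraicIndependent ℚ fun t => ((a t : ℚ_[p]) + (q t : ℚ_[p]) * x t) := by
  let φ : MvPolynomial T ℚ →ₐ[ℚ] MvPolynomial T ℚ :=
    MvPolynomial.aeval fun t => MvPolynomial.C (a t) + MvPolynomial.C (q t) * MvPolynomial.X t
  let ψ : MvPolynomial T ℚ →ₐ[ℚ] MvPolynomial T ℚ :=
    MvPolynomial.aeval fun t =>
      MvPolynomial.C (q t)⁻¹ * (MvPolynomial.X t - MvPolynomial.C (a t))
  have h1 : ψ.comp φ = AlgHom.id ℚ _ := by
    refine MvPolynomial.algHom_ext fun t => ?_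
    simp only [φ, ψ, AlgHom.comp_apply, MvPolynomial.aeval_X, map_add, map_mul, AlgHom.id_apply]
    have hC : ∀ r : ℚ, (MvPolynomial.aeval fun t => MvPolynomial.C (q t)⁻¹ *
        (MvPolynomial.X t - MvPolynomial.C (a t)) : MvPolynomial T ℚ →ₐ[ℚ] MvPolynomial T ℚ)
        (MvPolynomial.C r) = MvPolynomial.C r := fun r => MvPolynomial.aeval_C _ r
    rw [hC, hC, ← mul_assoc, ← MvPolynomial.C_mul, mul_inv_cancel₀ (hq t), MvPolynomial.C_1, one_mul]
    ring
  have hφ : Function.Injective φ := by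
    have h2 : Function.LeftInverse ψ φ := fun y => DFunLike.congr_fun h1 y
    exact h2.injective
  have h3 : (MvPolynomial.aeval fun t => ((a t : ℚ_[p]) + (q t : ℚ_[p]) * x t) :
      MvPolynomial T ℚ →ₐ[ℚ] ℚ_[p]) = (MvPolynomial.aeval x).comp φ := by
    refine MvPolynomial.algHom_ext fun t => ?_
    simp [φ]
  rw [AlgebraicIndependent, h3, AlgHom.coe_comp]
  exact Function.Injective.comp hx hφ

/-- There are algebraically independent `p`-adic integers in given residue classes. -/
theorem exists_algebraicIndependent_near (T : Type*) [Finite T] (a : T → ℤ) :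
    ∃ τ : T → ℤ_[p], AlgebraicIndependent ℤ (fun t => (τ t : ℚ_[p])) ∧
      ∀ t, PadicInt.toZMod (τ t) = (a t : ZMod p) := by
  obtain ⟨x, hx⟩ := exists_algebraicIndependent p T
  choose e y hy using fun t => exists_pow_mul_eq p (x t)
  refine ⟨fun t => (a t : ℤ_[p]) + (p : ℤ_[p]) * y t, ?_, fun t => ?_⟩
  · have h := algebraicIndependent_affine p hx (fun t => (a t : ℚ)) (fun t => (p : ℚ) ^ (e t + 1))
      (fun t => pow_ne_zero _ (by exact_mod_cast hp.out.ne_zero))
    have h2 := h.restrictScalars (R := ℤ) (by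
      exact (algebraMap ℤ ℚ).injective_int)
    convert h2 using 2 with t
    push_cast
    rw [hy, pow_succ']
    ring
  · rw [map_add, map_mul, map_natCast, CharP.cast_eq_zero, zero_mul, add_zero, map_intCast]

/-- The corresponding homomorphism `ℤ[T] → ℤ_p`. -/
theorem exists_eval_near {T : Type*} [Finite T] (a : T → ℤ) :
    ∃ ev : MvPolynomial T ℤ →+* ℤ_[p], Function.Injective ev ∧
      ∀ g, PadicInt.toZMod (ev g) = ((MvPolynomial.eval a g : ℤ) : ZMod p) := by
  obtain ⟨τ, hτ, hτa⟩ := exists_algebraicIndependent_near p T a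
  let ev : MvPolynomial T ℤ →+* ℤ_[p] := (MvPolynomial.aeval τ).toRingHom
  have hev : (PadicInt.toZMod (p := p)).comp ev =
      (Int.castRingHom (ZMod p)).comp (MvPolynomial.eval a) := by
    refine MvPolynomial.ringHom_ext (fun r => ?_) fun t => ?_
    · simp [ev]
    · simp [ev, hτa]
  refine ⟨ev, ?_, fun g => DFunLike.congr_fun hev g⟩
  have h1 : ((PadicInt.Coe.ringHom (p := p)).comp ev) =
      (MvPolynomial.aeval (fun t => (τ t : ℚ_[p])) : MvPolynomial T ℤ →ₐ[ℤ] ℚ_[p]).toRingHom := by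
    refine MvPolynomial.ringHom_ext (fun r => ?_) fun t => ?_
    · simp [ev]
    · simp only [ev, AlgHom.toRingHom_eq_coe, RingHom.coe_comp, RingHom.coe_coe,
        Function.comp_apply, MvPolynomial.aeval_X]
      rfl
  have h2 : Function.Injective ((PadicInt.Coe.ringHom (p := p)).comp ev) := by
    rw [h1]
    exact hτ
  exact fun x y h => h2 (by rw [RingHom.comp_apply, RingHom.comp_apply, h])

end AlgIndep

section Schur

/-- **Schur**: the values of a non-constant polynomial over `ℤ` have infinitely many prime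
divisors. -/
theorem exists_prime_dvd_eval {f : ℤ[X]} (hf : 0 < f.natDegree) (M : ℕ) :
    ∃ p : ℕ, p.Prime ∧ M ≤ p ∧ ∃ n : ℤ, (p : ℤ) ∣ f.eval n := by
  rcases eq_or_ne (f.eval 0) 0 with hc | hc
  · obtain ⟨p, hpM, hp⟩ := Nat.exists_infinite_primes M
    exact ⟨p, hp, hpM, 0, by rw [hc]; exact dvd_zero _⟩
  · have hf0 : f ≠ 0 := by
      rintro rfl
      simp at hf
    have hne : ∀ c : ℤ, f - C c ≠ 0 := fun c h => by
      rw [sub_eq_zero.mp h, natDegree_C] at hf
      exact lt_irrefl _ hf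
    have hh : f * (f - C (f.eval 0)) * (f - C (-f.eval 0)) ≠ 0 :=
      mul_ne_zero (mul_ne_zero hf0 (hne _)) (hne _)
    have hM : (M.factorial : ℤ) ≠ 0 := by exact_mod_cast M.factorial_ne_zero
    have ht : f.eval 0 * M.factorial ≠ 0 := mul_ne_zero hc hM
    obtain ⟨x, hx⟩ : ∃ x : ℕ, (f * (f - C (f.eval 0)) * (f - C (-f.eval 0))).eval
        (f.eval 0 * M.factorial * x) ≠ 0 := by
      by_contra hcon
      push Not at hcon
      refine hh (Polynomial.eq_zero_of_infinite_isRoot _ ?_)
      refine (Set.infinite_range_of_injective (f := fun x : ℕ => f.eval 0 * M.factorial * (x : ℤ))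
        fun x y h => ?_).mono ?_
      · exact_mod_cast mul_left_cancel₀ ht h
      · rintro _ ⟨x, rfl⟩
        exact hcon x
    rw [eval_mul, eval_mul, eval_sub, eval_sub, eval_C, eval_C] at hx
    have hx1 := left_ne_zero_of_mul (left_ne_zero_of_mul hx)
    have hx2 := right_ne_zero_of_mul (left_ne_zero_of_mul hx)
    have hx3 := right_ne_zero_of_mul hx
    obtain ⟨k, hk⟩ := Polynomial.sub_dvd_eval_sub (f.eval 0 * M.factorial * (x : ℤ)) 0 f
    have hval : f.eval (f.eval 0 * M.factorial * (x : ℤ)) =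
        f.eval 0 * (1 + M.factorial * (x * k)) := by linear_combination hk
    have hg1 : (1 + M.factorial * (x * k) : ℤ) ≠ 0 := fun h => hx1 (by rw [hval, h, mul_zero])
    have hg2 : (1 + M.factorial * (x * k) : ℤ) ≠ 1 := fun h => hx2 (by
      rw [hval, h, mul_one, sub_self])
    have hg3 : (1 + M.factorial * (x * k) : ℤ) ≠ -1 := fun h => hx3 (by
      rw [hval, h]
      ring)
    obtain ⟨p, hp, hpd⟩ := Nat.exists_prime_and_dvd
      (n := (1 + M.factorial * (x * k) : ℤ).natAbs) (by omega)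
    have hpd' : (p : ℤ) ∣ 1 + M.factorial * (x * k) := Int.natCast_dvd.mpr hpd
    refine ⟨p, hp, ?_, _, by rw [hval]; exact hpd'.mul_left _⟩
    by_contra hlt
    have h1 : (p : ℤ) ∣ M.factorial := by
      exact_mod_cast (hp.dvd_factorial).mpr (by omega)
    have h2 : (p : ℤ) ∣ 1 := (Int.dvd_add_left (h1.mul_right _)).mp hpd'
    exact hp.one_lt.ne' (by exact_mod_cast Int.eq_one_of_dvd_one (by positivity) h2)

end Schur

end Fermat.Agent.Cor.Cassels
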