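import Fermat.Agent.Corollaries.Cassels.Main

/-!
# Finitely generated linear groups are `p`-adic analytic

A finitely generated subgroup of `GL_n(K)`, `K` a field of characteristic `0`, embeds in `GL_n(ℤ_p)` for
infinitely many primes `p`.
-/

set_option autoImplicit false

open Matrix

namespace Fermat.Agent.Cor.Cassels

theorem glMap_injective {n : Type*} [Fintype n] [DecidableEq n] {A B : Type*} [CommRing A]
    [CommRing B] {f : A →+* B} (hf : Function.Injective f) :
    Function.Injective (GeneralLinearGroup.map (n := n) f) := by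
  intro x y h
  apply Units.ext
  ext i j
  have h1 := congrArg (fun g : GL n B => (g : Matrix n n B) i j) h
  exact hf h1

/-- **Embedding theorem for linear groups.** -/
theorem exists_embedding_linear {K : Type*} [Field K] [CharZero K] {n : Type*} [Fintype n]
    [DecidableEq n] (Γ : Subgroup (GL n K)) (hΓ : Γ.FG) (M : ℕ) :
    ∃ (p : ℕ) (_ : Fact p.Prime), M ≤ p ∧ ∃ φ : Γ →* GL n ℤ_[p], Function.Injective φ := by
  classical
  obtain ⟨X, hX⟩ := hΓ
  -- the ring of the entries
  let E : Set K := (⋃ g ∈ X, Set.range fun ij : n × n => (g : Matrix n n K) ij.1 ij.2) ∪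
    ⋃ g ∈ X, Set.range fun ij : n × n => ((g⁻¹ : GL n K) : Matrix n n K) ij.1 ij.2
  have hE : E.Finite :=
    (Set.Finite.biUnion X.finite_toSet fun g _ => Set.finite_range _).union
      (Set.Finite.biUnion X.finite_toSet fun g _ => Set.finite_range _)
  let A := Algebra.adjoin ℤ E
  have hft : Algebra.FiniteType ℤ A := by
    rw [← Subalgebra.fg_iff_finiteType]
    exact Subalgebra.fg_adjoin_finset (R := ℤ) hE.toFinset |> fun h => by
      simpa using h
  have hchar : CharZero A := charZero_of_injective_algebraMap (R := ℤ)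
    (show Function.Injective (algebraMap ℤ A) from fun x y h => by
      have h1 := congrArg (fun a : A => (a : K)) h
      simpa using h1)
  have hAinj : Function.Injective (algebraMap A K) := Subtype.val_injective
  have hmapinj := glMap_injective (n := n) hAinj
  have hle : Γ ≤ (GeneralLinearGroup.map (n := n) (algebraMap A K)).range := by
    rw [← hX, Subgroup.closure_le]
    intro g hg
    have h1 : ∀ i j, (g : Matrix n n K) i j ∈ A := fun i j =>
      Algebra.subset_adjoin (Or.inl (Set.mem_biUnion hg ⟨(i, j), rfl⟩))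
    have h2 : ∀ i j, ((g⁻¹ : GL n K) : Matrix n n K) i j ∈ A := fun i j =>
      Algebra.subset_adjoin (Or.inr (Set.mem_biUnion hg ⟨(i, j), rfl⟩))
    let g₁ : Matrix n n A := Matrix.of fun i j => ⟨_, h1 i j⟩
    let g₂ : Matrix n n A := Matrix.of fun i j => ⟨_, h2 i j⟩
    have hinjM : Function.Injective (fun P : Matrix n n A => P.map (algebraMap A K)) :=
      Matrix.map_injective hAinj
    have e1 : g₁.map (algebraMap A K) = (g : Matrix n n K) := by
      ext i j
      rfl
    have e2 : g₂.map (algebraMap A K) = ((g⁻¹ : GL n K) : Matrix n n K) := by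
      ext i j
      rfl
    have h12 : g₁ * g₂ = 1 := hinjM (by
      show (g₁ * g₂).map (algebraMap A K) = (1 : Matrix n n A).map (algebraMap A K)
      rw [Matrix.map_mul, e1, e2, Matrix.map_one _ (map_zero _) (map_one _), ← Units.val_mul,
        mul_inv_cancel, Units.val_one])
    have h21 : g₂ * g₁ = 1 := hinjM (by
      show (g₂ * g₁).map (algebraMap A K) = (1 : Matrix n n A).map (algebraMap A K)
      rw [Matrix.map_mul, e1, e2, Matrix.map_one _ (map_zero _) (map_one _), ← Units.val_mul,
        inv_mul_cancel, Units.val_one])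
    exact ⟨⟨g₁, g₂, h12, h21⟩, Units.ext e1⟩
  obtain ⟨p, hp, hM, σ, hσ, -⟩ := exists_embedding_ring (A := A) ∅ (by simp) M
  let ψ := MonoidHom.ofInjective hmapinj
  refine ⟨p, hp, hM, (GeneralLinearGroup.map (n := n) σ).comp
    ((ψ.symm : _ →* GL n A).comp (Subgroup.inclusion hle)), ?_⟩
  exact (glMap_injective hσ).comp (ψ.symm.injective.comp (Subgroup.inclusion_injective hle))

end Fermat.Agent.Cor.Cassels
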