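import Fermat.Agent.Corollaries.Cassels.Basic

/-!
# Cassels' embedding theorem

Let `K` be a finitely generated field of characteristic `0` and `S` a finite set of non-zero elements of
`K`. There are infinitely many primes `p` with an embedding `σ : K → ℚ_p` such that all `σ s`, `s ∈ S`, are
`p`-adic units (Lech 1953, Cassels 1976).
-/

set_option autoImplicit false

open Polynomial

open scoped nonZeroDivisors

namespace Fermat.Agent.Cor.Cassels

/-- **Hensel.** `R₀` a ring with `f₀ : R₀ → ℤ_p`, `U F + V F' = D` and `f₀ D` a unit: a root of `F`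
modulo `p` lifts to a root. -/
theorem exists_root {p : ℕ} [Fact p.Prime] {F U V : ℤ_[p][X]} {D : ℤ_[p]} (hD : IsUnit D)
    (h : U * F + V * derivative F = C D) {n : ℤ_[p]} (hn : PadicInt.toZMod (F.eval n) = 0) :
    ∃ β : ℤ_[p], F.eval β = 0 := by
  have h0 : ‖F.eval n‖ < 1 := by
    rw [← RingHom.mem_ker, PadicInt.ker_toZMod, IsLocalRing.mem_maximalIdeal,
      PadicInt.mem_nonunits] at hn
    exact hn
  have h1 : IsUnit ((derivative F).eval n) := by
    refine isUnit_of_toZMod_ne_zero fun hz => ?_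
    have h2 := congrArg (fun P : ℤ_[p][X] => PadicInt.toZMod (P.eval n)) h
    simp only [eval_add, eval_mul, eval_C, map_add, map_mul, hn, hz, mul_zero, add_zero] at h2
    exact (hD.map PadicInt.toZMod).ne_zero h2.symm
  have h3 : ‖(derivative F).eval n‖ = 1 := PadicInt.isUnit_iff.mp h1
  obtain ⟨z, hz, -⟩ := hensels_lemma (R := ℤ_[p]) (F := F) (a := n) (by
    rw [Polynomial.coe_aeval_eq_eval, h3]
    simpa using h0)
  exact ⟨z, by rwa [Polynomial.coe_aeval_eq_eval] at hz⟩

section Clear

variable {R₀ : Type*} [CommRing R₀] [IsDomain R₀]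

/-- Clearing the denominators of the Bezout relation of a separable polynomial. -/
theorem exists_bezout {L₀ : Type*} [Field L₀] [Algebra R₀ L₀] [IsFractionRing R₀ L₀] {m : L₀[X]}
    (hm : m.Separable) :
    ∃ (F U V : R₀[X]) (b D : R₀), b ≠ 0 ∧ D ≠ 0 ∧ F.map (algebraMap R₀ L₀) = C (algebraMap R₀ L₀ b) * m ∧
      U * F + V * derivative F = C D := by
  obtain ⟨u, v, huv⟩ := hm
  obtain ⟨b₁, hb₁, h₁⟩ := IsLocalization.integerNormalization_spec R₀⁰ m
  obtain ⟨b₂, hb₂, h₂⟩ := IsLocalization.integerNormalization_spec R₀⁰ u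
  obtain ⟨b₃, hb₃, h₃⟩ := IsLocalization.integerNormalization_spec R₀⁰ v
  rw [Algebra.smul_def, Polynomial.algebraMap_apply] at h₁ h₂ h₃
  have e₁ := nonZeroDivisors.ne_zero hb₁
  have e₂ := nonZeroDivisors.ne_zero hb₂
  have e₃ := nonZeroDivisors.ne_zero hb₃
  refine ⟨_, C b₃ * IsLocalization.integerNormalization R₀⁰ u,
    C b₂ * IsLocalization.integerNormalization R₀⁰ v, b₁, b₁ * b₂ * b₃, e₁,
    mul_ne_zero (mul_ne_zero e₁ e₂) e₃, h₁, ?_⟩
  apply Polynomial.map_injective _ (IsFractionRing.injective R₀ L₀)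
  rw [Polynomial.map_add, Polynomial.map_mul, Polynomial.map_mul, Polynomial.map_mul,
    Polynomial.map_mul, ← derivative_map, h₁, h₂, h₃, derivative_C_mul, Polynomial.map_C,
    Polynomial.map_C, Polynomial.map_C, map_mul, C_mul, map_mul, C_mul]
  linear_combination (C (algebraMap R₀ L₀ b₁) * C (algebraMap R₀ L₀ b₂) *
    C (algebraMap R₀ L₀ b₃)) * huv

end Clear

/-- **Specialisation.** -/
theorem exists_specialization {T : Type*} [Finite T] {F : (MvPolynomial T ℤ)[X]}
    (hF : 0 < F.natDegree) {G : MvPolynomial T ℤ} (hG : G ≠ 0) (M : ℕ) :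
    ∃ (p : ℕ) (_ : Fact p.Prime), M ≤ p ∧ ∃ ev : MvPolynomial T ℤ →+* ℤ_[p],
      Function.Injective ev ∧ IsUnit (ev G) ∧
      ∃ n : ℤ_[p], PadicInt.toZMod ((F.map ev).eval n) = 0 := by
  have hF0 : F.leadingCoeff ≠ 0 := by
    rw [Ne, leadingCoeff_eq_zero]
    rintro rfl
    simp at hF
  obtain ⟨a, ha⟩ : ∃ a : T → ℤ, MvPolynomial.eval a (G * F.leadingCoeff) ≠ 0 := by
    by_contra hcon
    push Not at hcon
    exact mul_ne_zero hG hF0 (MvPolynomial.funext fun x => by rw [hcon x, map_zero])
  rw [map_mul] at ha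
  have hf : 0 < (F.map (MvPolynomial.eval a)).natDegree := by
    rw [natDegree_map_of_leadingCoeff_ne_zero _ (right_ne_zero_of_mul ha)]
    exact hF
  obtain ⟨p, hpp, hpM, n, hn⟩ := exists_prime_dvd_eval hf
    (max M ((MvPolynomial.eval a G).natAbs + 1))
  have hfact : Fact p.Prime := ⟨hpp⟩
  obtain ⟨ev, hev, hmod⟩ := exists_eval_near p a
  refine ⟨p, hfact, (le_max_left _ _).trans hpM, ev, hev, ?_, n, ?_⟩
  · refine isUnit_of_toZMod_ne_zero ?_
    rw [hmod, Ne, ZMod.intCast_zmod_eq_zero_iff_dvd]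
    intro h
    have h1 := Nat.le_of_dvd (Int.natAbs_pos.mpr (left_ne_zero_of_mul ha)) (Int.natCast_dvd.mp h)
    have h2 := (le_max_right M ((MvPolynomial.eval a G).natAbs + 1)).trans hpM
    omega
  · have hcomp : (PadicInt.toZMod (p := p)).comp ev =
        (Int.castRingHom (ZMod p)).comp (MvPolynomial.eval a) := RingHom.ext fun g => hmod g
    have h1 : PadicInt.toZMod ((F.map ev).eval (n : ℤ_[p])) =
        ((F.map ev).map PadicInt.toZMod).eval (PadicInt.toZMod (n : ℤ_[p])) :=
      (Polynomial.eval₂_at_apply _ _).symm.trans (Polynomial.eval_map _ _).symm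
    rw [h1, Polynomial.map_map, hcomp, ← Polynomial.map_map, map_intCast]
    have h2 : ((F.map (MvPolynomial.eval a)).map (Int.castRingHom (ZMod p))).eval (n : ZMod p) =
        (((F.map (MvPolynomial.eval a)).eval n : ℤ) : ZMod p) := by
      rw [eval_map, ← eq_intCast (Int.castRingHom (ZMod p)) n, eval₂_hom]
      simp
    rw [h2, ZMod.intCast_zmod_eq_zero_iff_dvd]
    exact hn

section Field

variable {K : Type*} [Field K] [CharZero K]

theorem isAlgebraic_adjoin {V : Set K} (htop : IntermediateField.adjoin ℚ V = ⊤) :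
    Algebra.IsAlgebraic (Algebra.adjoin ℤ V) K := by
  refine ⟨fun x => ?_⟩
  have hx : x ∈ IntermediateField.adjoin ℚ V := by
    rw [htop]
    trivial
  induction hx using IntermediateField.adjoin_induction with
  | mem x hx => exact isAlgebraic_algebraMap (⟨x, Algebra.subset_adjoin hx⟩ : Algebra.adjoin ℤ V)
  | algebraMap q =>
    have h1 : IsAlgebraic (Algebra.adjoin ℤ V) ((q.num : K)) := by
      have := isAlgebraic_algebraMap (A := K) ((q.num : ℤ) : Algebra.adjoin ℤ V)
      simpa using this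
    have h2 : IsAlgebraic (Algebra.adjoin ℤ V) ((q.den : K)) := by
      have := isAlgebraic_algebraMap (A := K) ((q.den : ℕ) : Algebra.adjoin ℤ V)
      simpa using this
    have h3 : algebraMap ℚ K q = (q.num : K) * (q.den : K)⁻¹ := by
      rw [eq_ratCast, ← div_eq_mul_inv, Rat.cast_def]
    rw [h3]
    exact h1.mul h2.inv
  | add x y _ _ hx hy => exact hx.add hy
  | inv x _ hx => exact hx.inv
  | mul x y _ _ hx hy => exact hx.mul hy

/-- The embedding theorem over a polynomial ring. -/
theorem exists_embedding_aux {R₀ : Type*} [CommRing R₀] [IsDomain R₀] [Algebra R₀ K]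
    [FaithfulSMul R₀ K] [Algebra.IsAlgebraic R₀ K] {T : Type*} [Finite T]
    (e : MvPolynomial T ℤ ≃+* R₀) {V : Set K} (hV : V.Finite)
    (htop : IntermediateField.adjoin ℚ V = ⊤) (S : Finset K) (hS : ∀ s ∈ S, s ≠ 0) (M : ℕ) :
    ∃ (p : ℕ) (_ : Fact p.Prime), M ≤ p ∧ ∃ σ : K →+* ℚ_[p], ∀ s ∈ S, ‖σ s‖ = 1 := by
  classical
  -- the fraction field
  let : Algebra (FractionRing R₀) K := FractionRing.liftAlgebra R₀ K
  have htower : IsScalarTower R₀ (FractionRing R₀) K := FractionRing.isScalarTower_liftAlgebra R₀ K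
  have hal' : Algebra.IsAlgebraic (FractionRing R₀) K :=
    Algebra.IsAlgebraic.extendScalars (R := R₀) (IsFractionRing.injective R₀ (FractionRing R₀))
  have hchar : CharZero (FractionRing R₀) := (algebraMap (FractionRing R₀) K).charZero
  have hfd : FiniteDimensional (FractionRing R₀) K := by
    have hfin : Finite V := hV.to_subtype
    have h1 : FiniteDimensional (FractionRing R₀) (IntermediateField.adjoin (FractionRing R₀) V) :=
      IntermediateField.finiteDimensional_adjoin fun x _ => (hal'.isAlgebraic x).isIntegral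
    have h2 : IntermediateField.adjoin (FractionRing R₀) V = ⊤ := by
      rw [eq_top_iff]
      intro x _
      have hx : x ∈ IntermediateField.adjoin ℚ V := by
        rw [htop]
        trivial
      induction hx using IntermediateField.adjoin_induction with
      | mem x hx => exact IntermediateField.subset_adjoin _ _ hx
      | algebraMap q =>
        rw [eq_ratCast]
        exact SubfieldClass.ratCast_mem _ q
      | add x y _ _ hx hy => exact add_mem (hx trivial) (hy trivial)
      | inv x _ hx => exact inv_mem (hx trivial)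
      | mul x y _ _ hx hy => exact mul_mem (hx trivial) (hy trivial)
    rw [h2] at h1
    exact Module.Finite.equiv (IntermediateField.topEquiv (F := FractionRing R₀) (E := K)).toLinearEquiv
  let pb := Field.powerBasisOfFiniteOfSeparable (FractionRing R₀) K
  have hsep : (minpoly (FractionRing R₀) pb.gen).Separable :=
    Algebra.IsSeparable.isSeparable (FractionRing R₀) pb.gen
  obtain ⟨F, U, V', b, D, hb, hD, hF, hUV⟩ := exists_bezout (R₀ := R₀) hsep
  have hFdeg : 0 < F.natDegree := by
    have h1 : (F.map (algebraMap R₀ (FractionRing R₀))).natDegree = F.natDegree :=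
      natDegree_map_eq_of_injective (IsFractionRing.injective R₀ (FractionRing R₀)) F
    rw [← h1, hF, natDegree_C_mul ((map_ne_zero_iff _
      (IsFractionRing.injective R₀ (FractionRing R₀))).mpr hb)]
    exact minpoly.natDegree_pos (hal'.isAlgebraic _).isIntegral
  have hq : ∀ x : K, x ≠ 0 → ∃ q : R₀[X], q.coeff 0 ≠ 0 ∧ aeval x q = 0 := fun x hx =>
    (Algebra.IsAlgebraic.isAlgebraic (R := R₀) x).exists_nonzero_coeff_and_aeval_eq_zero
      (mem_nonZeroDivisors_of_ne_zero hx)
  choose! q hq0 hqx using hq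
  obtain ⟨G, hG⟩ : ∃ G, G = D * b * ∏ s ∈ S, ((q s).leadingCoeff * (q s).coeff 0) := ⟨_, rfl⟩
  have hG0 : G ≠ 0 := by
    rw [hG]
    refine mul_ne_zero (mul_ne_zero hD hb)
      (Finset.prod_ne_zero_iff.mpr fun s hs => mul_ne_zero ?_ (hq0 s (hS s hs)))
    rw [Ne, leadingCoeff_eq_zero]
    intro h
    exact hq0 s (hS s hs) (by rw [h, coeff_zero])
  have hdeg' : 0 < (F.map (e.symm : R₀ →+* MvPolynomial T ℤ)).natDegree := by
    rw [natDegree_map_eq_of_injective e.symm.injective]
    exact hFdeg
  obtain ⟨p, hfact, hM, ev, hev, hunit, n, hn⟩ := exists_specialization hdeg'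
    (G := e.symm G) (fun h => hG0 (by rw [← e.apply_symm_apply G, h, map_zero])) M
  obtain ⟨f₀, hf₀⟩ : ∃ f₀ : R₀ →+* ℤ_[p], f₀ = ev.comp (e.symm : R₀ →+* MvPolynomial T ℤ) :=
    ⟨_, rfl⟩
  have hf₀_inj : Function.Injective f₀ := by
    rw [hf₀]
    exact hev.comp e.symm.injective
  have hunit' : IsUnit (f₀ G) := by
    rw [hf₀]
    exact hunit
  rw [Polynomial.map_map, ← hf₀] at hn
  rw [hG, map_mul, map_mul, map_prod] at hunit'
  have hDu : IsUnit (f₀ D) := isUnit_of_mul_isUnit_left (isUnit_of_mul_isUnit_left hunit')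
  have hSu : ∀ s ∈ S, IsUnit (f₀ (q s).leadingCoeff) ∧ IsUnit (f₀ ((q s).coeff 0)) := by
    intro s hs
    have h1 : IsUnit (f₀ ((q s).leadingCoeff * (q s).coeff 0)) :=
      isUnit_of_dvd_unit (Finset.dvd_prod_of_mem
        (fun s => f₀ ((q s).leadingCoeff * (q s).coeff 0)) hs) (isUnit_of_mul_isUnit_right hunit')
    rw [map_mul] at h1
    exact ⟨isUnit_of_mul_isUnit_left h1, isUnit_of_mul_isUnit_right h1⟩
  -- the root
  obtain ⟨β, hβ⟩ := exists_root (F := F.map f₀) (U := U.map f₀) (V := V'.map f₀) hDu (by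
    rw [derivative_map, ← Polynomial.map_mul, ← Polynomial.map_mul, ← Polynomial.map_add, hUV,
      Polynomial.map_C]) hn
  -- the embedding
  obtain ⟨g, hg⟩ : ∃ g : R₀ →+* ℚ_[p], g = PadicInt.Coe.ringHom.comp f₀ := ⟨_, rfl⟩
  have hg_inj : Function.Injective g := by
    rw [hg]
    exact fun x y h => hf₀_inj (PadicInt.ext h)
  let : Algebra (FractionRing R₀) ℚ_[p] := (IsFractionRing.lift hg_inj).toAlgebra
  have hlift : ∀ r : R₀, algebraMap (FractionRing R₀) ℚ_[p] (algebraMap R₀ _ r) = g r :=
    fun r => IsFractionRing.lift_algebraMap hg_inj r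
  have hcomp : (algebraMap (FractionRing R₀) ℚ_[p]).comp (algebraMap R₀ (FractionRing R₀)) = g :=
    RingHom.ext hlift
  have hroot : aeval (β : ℚ_[p]) (minpoly (FractionRing R₀) pb.gen) = 0 := by
    have h1 := congrArg (eval₂ (algebraMap (FractionRing R₀) ℚ_[p]) (β : ℚ_[p])) hF
    rw [eval₂_map, hcomp, eval₂_mul, eval₂_C, hlift] at h1
    have h2 : eval₂ g (β : ℚ_[p]) F = 0 := by
      rw [hg, ← eval₂_map]
      have h3 : eval₂ PadicInt.Coe.ringHom (PadicInt.Coe.ringHom β) (F.map f₀) =
          PadicInt.Coe.ringHom ((F.map f₀).eval β) := Polynomial.eval₂_at_apply _ _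
      rw [hβ, map_zero] at h3
      exact h3
    rw [h2] at h1
    rcases mul_eq_zero.mp h1.symm with h3 | h3
    · exact absurd (hg_inj (h3.trans (map_zero g).symm)) hb
    · exact h3
  let σ : K →ₐ[FractionRing R₀] ℚ_[p] := pb.lift (β : ℚ_[p]) hroot
  refine ⟨p, hfact, hM, σ.toRingHom, fun s hs => ?_⟩
  have hσg : (σ.toRingHom).comp (algebraMap R₀ K) = g := by
    refine RingHom.ext fun r => ?_
    show σ (algebraMap R₀ K r) = g r
    rw [IsScalarTower.algebraMap_apply R₀ (FractionRing R₀) K, AlgHom.commutes, hlift]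
  have h1 : eval₂ PadicInt.Coe.ringHom (σ s) ((q s).map f₀) = 0 := by
    rw [eval₂_map, ← hg, ← hσg]
    have h2 := Polynomial.hom_eval₂ (q s) (algebraMap R₀ K) σ.toRingHom s
    rw [← aeval_def, hqx s (hS s hs), map_zero] at h2
    exact h2.symm
  refine norm_eq_one_of_isUnit (P := (q s).map f₀) ?_ ?_ ?_ h1
  · rw [leadingCoeff_map_of_leadingCoeff_ne_zero _ (hSu s hs).1.ne_zero]
    exact (hSu s hs).1
  · rw [coeff_map]
    exact (hSu s hs).2
  · exact (map_ne_zero_iff σ σ.toRingHom.injective).mpr (hS s hs)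

/-- **The embedding theorem** of Lech and Cassels: a finitely generated field `K` of characteristic
`0` has, for infinitely many primes `p`, an embedding in `ℚ_p` for which the elements of a given
finite set `S` are `p`-adic units. -/
theorem exists_embedding {V : Set K} (hV : V.Finite) (htop : IntermediateField.adjoin ℚ V = ⊤)
    (S : Finset K) (hS : ∀ s ∈ S, s ≠ 0) (M : ℕ) :
    ∃ (p : ℕ) (_ : Fact p.Prime), M ≤ p ∧ ∃ σ : K →+* ℚ_[p], ∀ s ∈ S, ‖σ s‖ = 1 := by
  have halg := isAlgebraic_adjoin htop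
  obtain ⟨T, hTV, hT⟩ := exists_isTranscendenceBasis_subset (R := ℤ) V
  have hTfin : Finite T := (hV.subset hTV).to_subtype
  have hal := hT.isAlgebraic
  exact exists_embedding_aux hT.1.aevalEquiv.toRingEquiv hV htop S hS M

/-- The primes of the embedding theorem are infinite in number. -/
theorem infinite_embedding {V : Set K} (hV : V.Finite) (htop : IntermediateField.adjoin ℚ V = ⊤)
    (S : Finset K) (hS : ∀ s ∈ S, s ≠ 0) :
    {p : ℕ | ∃ _ : Fact p.Prime, ∃ σ : K →+* ℚ_[p], ∀ s ∈ S, ‖σ s‖ = 1}.Infinite := by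
  refine Set.infinite_of_not_bddAbove fun ⟨B, hB⟩ => ?_
  obtain ⟨p, hp, hM, σ, hσ⟩ := exists_embedding hV htop S hS (B + 1)
  have h1 : p ≤ B := hB ⟨hp, σ, hσ⟩
  omega

end Field

/-- **The embedding theorem for rings**: a domain `A` of characteristic `0` which is finitely
generated over `ℤ` has, for infinitely many primes `p`, an embedding in `ℤ_p` for which the elements
of a given finite set of non-zero elements are units. -/
theorem exists_embedding_ring {A : Type*} [CommRing A] [IsDomain A] [CharZero A]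
    [Algebra.FiniteType ℤ A] (S : Finset A) (hS : ∀ s ∈ S, s ≠ 0) (M : ℕ) :
    ∃ (p : ℕ) (_ : Fact p.Prime), M ≤ p ∧ ∃ σ : A →+* ℤ_[p], Function.Injective σ ∧
      ∀ s ∈ S, IsUnit (σ s) := by
  classical
  obtain ⟨W, hW⟩ := (Algebra.FiniteType.out : (⊤ : Subalgebra ℤ A).FG)
  have hinj := IsFractionRing.injective A (FractionRing A)
  have hchar : CharZero (FractionRing A) := charZero_of_injective_algebraMap hinj
  let V : Finset (FractionRing A) := W.image (algebraMap A (FractionRing A))
  have hA : ∀ a : A, algebraMap A (FractionRing A) a ∈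
      IntermediateField.adjoin ℚ (V : Set (FractionRing A)) := by
    intro a
    have ha : a ∈ Algebra.adjoin ℤ (W : Set A) := by
      rw [hW]
      trivial
    induction ha using Algebra.adjoin_induction with
    | mem x hx =>
      exact IntermediateField.subset_adjoin _ _ (Finset.mem_coe.mpr
        (Finset.mem_image_of_mem _ (Finset.mem_coe.mp hx)))
    | algebraMap r =>
      rw [eq_intCast, map_intCast]
      exact intCast_mem _ r
    | add x y _ _ hx hy => rw [map_add]; exact add_mem hx hy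
    | mul x y _ _ hx hy => rw [map_mul]; exact mul_mem hx hy
  have htop : IntermediateField.adjoin ℚ (V : Set (FractionRing A)) = ⊤ := by
    rw [eq_top_iff]
    intro x _
    obtain ⟨a, b, hb, rfl⟩ := IsFractionRing.div_surjective (A := A) x
    exact div_mem (hA a) (hA b)
  obtain ⟨p, hp, hM, σ, hσ⟩ := exists_embedding V.finite_toSet htop
    (((W.filter (· ≠ 0)) ∪ S).image (algebraMap A (FractionRing A))) (by
      intro s hs
      obtain ⟨a, ha, rfl⟩ := Finset.mem_image.mp hs
      rw [Ne, map_eq_zero_iff _ hinj]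
      rcases Finset.mem_union.mp ha with h | h
      · exact (Finset.mem_filter.mp h).2
      · exact hS a h) M
  have hσ' : ∀ a ∈ (W.filter (· ≠ 0)) ∪ S, ‖σ (algebraMap A (FractionRing A) a)‖ = 1 :=
    fun a ha => hσ _ (Finset.mem_image_of_mem _ ha)
  have hint : ∀ a : A, ‖σ (algebraMap A (FractionRing A) a)‖ ≤ 1 := by
    intro a
    have ha : a ∈ Algebra.adjoin ℤ (W : Set A) := by
      rw [hW]
      trivial
    induction ha using Algebra.adjoin_induction with
    | mem x hx =>
      rcases eq_or_ne x 0 with rfl | h0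
      · rw [map_zero, map_zero, norm_zero]
        exact zero_le_one
      · exact (hσ' x (Finset.mem_union_left _ (Finset.mem_filter.mpr
          ⟨Finset.mem_coe.mp hx, h0⟩))).le
    | algebraMap r =>
      rw [eq_intCast, map_intCast, map_intCast]
      exact Padic.norm_int_le_one r
    | add x y _ _ hx hy =>
      rw [map_add, map_add]
      exact (IsUltrametricDist.norm_add_le_max _ _).trans (max_le hx hy)
    | mul x y _ _ hx hy =>
      rw [map_mul, map_mul, norm_mul]
      exact mul_le_one₀ hx (norm_nonneg _) hy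
  let τ : A →+* ℤ_[p] := (σ.comp (algebraMap A (FractionRing A))).codRestrict
    (PadicInt.subring p) hint
  have hτ : ∀ a, ((τ a : ℤ_[p]) : ℚ_[p]) = σ (algebraMap A (FractionRing A) a) := fun a => rfl
  refine ⟨p, hp, hM, τ, fun x y h => hinj (σ.injective ?_), fun s hs => ?_⟩
  · rw [← hτ, ← hτ, h]
  · rw [PadicInt.isUnit_iff, PadicInt.norm_def, hτ]
    exact hσ' s (Finset.mem_union_right _ hs)

end Fermat.Agent.Cor.Cassels
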